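import Fermat.Agent.Frob.Center
import Mathlib.RingTheory.RootsOfUnity.PrimitiveRoots

/-!
Action of Frobenius and inertia elements at a place above `ℓ` on roots of unity of order prime
to `ℓ`.
-/

set_option autoImplicit false

namespace Fermat.Agent.QuadRep

open Fermat.Agent.Frob

section

variable {L : Type*} [Field L] [Algebra ℚ L]

theorem residue_toVal_eq_one_imp {A : ValuationSubring L} {ℓ : ℕ} (hℓ : ℓ.Prime)
    (hA : A.LiesOverPrime ℓ) {N : ℕ} (hN : N.Coprime ℓ) (η : integralClosure ℤ L)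
    (hη : η ^ N = 1) (h1 : η - 1 ∈ center A) : η = 1 := by
  by_contra hne
  have hsum : ∑ i ∈ Finset.range N, η ^ i = 0 := by
    have h := geom_sum_mul η N
    rw [hη, sub_self] at h
    rcases mul_eq_zero.mp h with h | h
    · exact h
    · exact absurd (sub_eq_zero.mp h) hne
  have h2 : (N : integralClosure ℤ L) ∈ center A := by
    rw [← Ideal.Quotient.eq_zero_iff_mem, map_natCast]
    have h3 : Ideal.Quotient.mk (center A) η = 1 := by
      rw [← map_one (Ideal.Quotient.mk (center A)), Ideal.Quotient.eq]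
      exact h1
    have h4 := congrArg (Ideal.Quotient.mk (center A)) hsum
    rw [map_sum, map_zero] at h4
    simpa [h3] using h4
  have h5 := (natCast_mem_center_iff A ℓ).mpr hA
  have h6 : (1 : integralClosure ℤ L) ∈ center A := by
    have hcop := (Nat.isCoprime_iff_coprime.mpr hN)
    obtain ⟨a, b, hab⟩ := hcop
    have : (1 : integralClosure ℤ L) = (a : integralClosure ℤ L) * (N : integralClosure ℤ L)
        + (b : integralClosure ℤ L) * (ℓ : integralClosure ℤ L) := by
      have := congrArg (Int.cast : ℤ → integralClosure ℤ L) hab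
      push_cast at this
      exact this.symm
    rw [this]
    exact Ideal.add_mem _ (Ideal.mul_mem_left _ _ h2) (Ideal.mul_mem_left _ _ h5)
  exact (center_isPrime A).ne_top ((Ideal.eq_top_iff_one _).mpr h6)

/-- An `N`-th root of unity as an algebraic integer. -/
def rootInt {N : ℕ} (hN : 0 < N) (μ : L) (hμ : μ ^ N = 1) : integralClosure ℤ L :=
  ⟨μ, by
    refine ⟨Polynomial.X ^ N - Polynomial.C 1, Polynomial.monic_X_pow_sub_C 1 hN.ne', ?_⟩
    simp [hμ]⟩

theorem frobenius_smul_root {A : ValuationSubring L} {σ : L ≃ₐ[ℚ] L} {ℓ : ℕ} (hℓ : ℓ.Prime)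
    (hA : A.LiesOverPrime ℓ) (hσ : A.IsFrobeniusAt σ ℓ) {N : ℕ} (hN0 : 0 < N)
    (hN : N.Coprime ℓ) (μ : L) (hμ : μ ^ N = 1) : σ μ = μ ^ ℓ := by
  have hμ' : (σ μ) ^ N = 1 := by rw [← map_pow, hμ, map_one]
  have hμinv : (μ⁻¹) ^ N = 1 := by rw [inv_pow, hμ, inv_one]
  set x := rootInt hN0 μ hμ with hx
  set y := rootInt hN0 (σ μ) hμ' with hy
  set z := rootInt hN0 μ⁻¹ hμinv with hz
  have hμ0 : μ ≠ 0 := by
    rintro rfl
    rw [zero_pow hN0.ne'] at hμ
    exact zero_ne_one hμ
  have hxz : x * z = 1 := Subtype.ext (mul_inv_cancel₀ hμ0)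
  have hyx : y - x ^ ℓ ∈ center A := by
    rw [center, Ideal.mem_comap, ← IsLocalRing.residue_eq_zero_iff]
    have h := hσ.smul_residue_eq (IsLocalRing.residue A (toVal A x))
    rw [← IsLocalRing.ResidueField.residue_smul] at h
    rw [map_sub, map_sub, map_pow, map_pow, ← h, sub_eq_zero]
    rfl
  have hη : y * z ^ ℓ = 1 := by
    refine residue_toVal_eq_one_imp hℓ hA hN _ ?_ ?_
    · have hyN : y ^ N = 1 := Subtype.ext hμ'
      have hzN : z ^ N = 1 := Subtype.ext hμinv
      rw [mul_pow, hyN, ← pow_mul, mul_comm ℓ N, pow_mul, hzN, one_pow, one_mul]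
    · have : y * z ^ ℓ - 1 = (y - x ^ ℓ) * z ^ ℓ := by
        rw [sub_mul, ← mul_pow, hxz, one_pow]
      rw [this]
      exact Ideal.mul_mem_right _ _ hyx
  have hfin : y = x ^ ℓ := by
    have : y = y * z ^ ℓ * x ^ ℓ := by
      rw [mul_assoc, ← mul_pow, mul_comm z x, hxz, one_pow, mul_one]
    rw [this, hη, one_mul]
  exact congrArg Subtype.val hfin

theorem inertia_smul_root {A : ValuationSubring L} {σ : L ≃ₐ[ℚ] L} {ℓ : ℕ} (hℓ : ℓ.Prime)
    (hA : A.LiesOverPrime ℓ) (hσ : σ ∈ A.inertiaSubgroupIn ℚ) {N : ℕ} (hN0 : 0 < N)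
    (hN : N.Coprime ℓ) (μ : L) (hμ : μ ^ N = 1) : σ μ = μ := by
  have hμ' : (σ μ) ^ N = 1 := by rw [← map_pow, hμ, map_one]
  have hμinv : (μ⁻¹) ^ N = 1 := by rw [inv_pow, hμ, inv_one]
  set x := rootInt hN0 μ hμ with hx
  set y := rootInt hN0 (σ μ) hμ' with hy
  set z := rootInt hN0 μ⁻¹ hμinv with hz
  have hμ0 : μ ≠ 0 := by
    rintro rfl
    rw [zero_pow hN0.ne'] at hμ
    exact zero_ne_one hμ
  have hxz : x * z = 1 := Subtype.ext (mul_inv_cancel₀ hμ0)
  have hyx : y - x ∈ center A := by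
    rw [center, Ideal.mem_comap, ← IsLocalRing.residue_eq_zero_iff]
    obtain ⟨⟨σ, hσD⟩, hσI, rfl⟩ := hσ
    have h : (⟨σ, hσD⟩ : A.decompositionSubgroup ℚ) •
        (IsLocalRing.residue A (toVal A x)) = IsLocalRing.residue A (toVal A x) := by
      have := MonoidHom.mem_ker.mp (SetLike.mem_coe.mp hσI)
      exact DFunLike.congr_fun this _
    rw [← IsLocalRing.ResidueField.residue_smul] at h
    rw [map_sub, map_sub, ← h, sub_eq_zero]
    rfl
  have hη : y * z = 1 := by
    refine residue_toVal_eq_one_imp hℓ hA hN _ ?_ ?_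
    · have hyN : y ^ N = 1 := Subtype.ext hμ'
      have hzN : z ^ N = 1 := Subtype.ext hμinv
      rw [mul_pow, hyN, hzN, one_mul]
    · have : y * z - 1 = (y - x) * z := by
        rw [sub_mul, hxz]
      rw [this]
      exact Ideal.mul_mem_right _ _ hyx
  have hfin : y = x := by
    have : y = y * z * x := by
      rw [mul_assoc, mul_comm z x, hxz, mul_one]
    rw [this, hη, one_mul]
  exact congrArg Subtype.val hfin

end

end Fermat.Agent.QuadRep
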