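import Mathlib
import Fermat.Prelude.Thm_Algebra_finite_maximalSpectrum_and_bijective_localization_of_module_finite
import Fermat.Prelude.Thm_IsLocalRing_isAdicComplete_of_module_finite

set_option autoImplicit false

/-!
# Finite extensions of complete discrete valuation rings
-/

open IsLocalRing

namespace Fermat.Agent.QuadRep

/-- A domain finite over a complete Noetherian local ring is local. -/
theorem isLocalRing_of_finite_of_isDomain (O : Type) [CommRing O] [IsLocalRing O]
    [IsNoetherianRing O] [IsAdicComplete (maximalIdeal O) O] (A : Type) [CommRing A] [IsDomain A]
    [Algebra O A] [Module.Finite O A] : IsLocalRing A := by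
  classical
  obtain ⟨-, hbij, -, -⟩ :=
    Algebra.finite_maximalSpectrum_and_bijective_localization_of_module_finite (𝒪 := O) A
  obtain ⟨I, hI⟩ := Ideal.exists_maximal A
  refine IsLocalRing.of_unique_max_ideal ⟨I, hI, fun J hJ => ?_⟩
  by_contra hne
  let mI : MaximalSpectrum A := ⟨I, hI⟩
  let mJ : MaximalSpectrum A := ⟨J, hJ⟩
  have hmne : mJ ≠ mI := fun h => hne (congrArg MaximalSpectrum.asIdeal h)
  obtain ⟨a, ha⟩ := hbij.2 (Pi.single mI 1)
  obtain ⟨b, hb⟩ := hbij.2 (Pi.single mJ 1)
  have hab : a * b = 0 := by
    apply hbij.1
    rw [map_mul, ha, hb, map_zero]
    ext m
    by_cases h1 : m = mI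
    · subst h1
      simp [Pi.single_eq_of_ne hmne.symm]
    · simp [Pi.single_eq_of_ne h1]
  rcases mul_eq_zero.mp hab with h0 | h0
  · rw [h0, map_zero] at ha
    have := congrFun ha mI
    simp at this
  · rw [h0, map_zero] at hb
    have := congrFun hb mJ
    simp at this

theorem charZero_field (O K : Type) [CommRing O] [CharZero O] [Field K] [Algebra O K]
    [IsFractionRing O K] : CharZero K :=
  charZero_of_injective_algebraMap (R := O) (A := K) (IsFractionRing.injective O K)

section

set_option linter.unusedSectionVars false
set_option linter.style.haveILetI false

variable (O : Type) [CommRing O] [IsDomain O] [IsDiscreteValuationRing O]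
  [IsAdicComplete (maximalIdeal O) O] [CharZero O]
  (K : Type) [Field K] [Algebra O K] [IsFractionRing O K]
  (L : Type) [Field L] [Algebra K L] [FiniteDimensional K L] [Algebra O L] [IsScalarTower O K L]

omit [IsDomain O] [IsDiscreteValuationRing O] [IsAdicComplete (maximalIdeal O) O] [CharZero O]
  [FiniteDimensional K L] in
include K in
theorem algebraMap_integralClosure_injective :
    Function.Injective (algebraMap O (integralClosure O L)) := by
  have h : Function.Injective (algebraMap O L) := by
    rw [IsScalarTower.algebraMap_eq O K L]
    exact (algebraMap K L).injective.comp (IsFractionRing.injective O K)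
  intro x y hxy
  apply h
  have := congrArg (fun z : integralClosure O L => (z : L)) hxy
  simpa using this

include K in
theorem finite_integralClosure : Module.Finite O (integralClosure O L) := by
  have := charZero_field O K
  exact IsIntegralClosure.finite O K L (integralClosure O L)

include K in
theorem isLocalRing_integralClosure : IsLocalRing (integralClosure O L) :=
  have := finite_integralClosure O K L
  isLocalRing_of_finite_of_isDomain O (integralClosure O L)

include K in
theorem isDiscreteValuationRing_integralClosure :
    IsDiscreteValuationRing (integralClosure O L) := by
  have := charZero_field O K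
  have := isLocalRing_integralClosure O K L
  have := finite_integralClosure O K L
  have hd : IsDedekindDomain (integralClosure O L) := integralClosure.isDedekindDomain O K L
  have hnf : ¬ IsField (integralClosure O L) := fun h =>
    IsDiscreteValuationRing.not_isField O
      (isField_of_isIntegral_of_isField (algebraMap_integralClosure_injective O K L) h)
  exact ((IsDiscreteValuationRing.TFAE (integralClosure O L) hnf).out 0 2).mpr hd

include K in
theorem isLocalHom_integralClosure :
    IsLocalHom (algebraMap O (integralClosure O L)) := by
  have : Algebra.IsIntegral O (integralClosure O L) := inferInstance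
  exact (algebraMap_isIntegral_iff.mpr this).isLocalHom
    (algebraMap_integralClosure_injective O K L)

include K in
theorem isAdicComplete_integralClosure :
    letI := isLocalRing_integralClosure O K L
    IsAdicComplete (maximalIdeal (integralClosure O L)) (integralClosure O L) := by
  letI := isLocalRing_integralClosure O K L
  have := finite_integralClosure O K L
  have := isLocalHom_integralClosure O K L
  exact IsLocalRing.isAdicComplete_of_module_finite (𝒪 := O)

include K in
theorem finite_residueField_integralClosure [Finite (ResidueField O)] :
    letI := isLocalRing_integralClosure O K L
    Finite (ResidueField (integralClosure O L)) := by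
  letI := isLocalRing_integralClosure O K L
  have := finite_integralClosure O K L
  have := isLocalHom_integralClosure O K L
  have : Module.Finite (ResidueField O) (ResidueField (integralClosure O L)) := inferInstance
  exact Module.finite_of_finite (ResidueField O)

include K in
theorem charZero_integralClosure : CharZero (integralClosure O L) :=
  charZero_of_injective_algebraMap (algebraMap_integralClosure_injective O K L)

end

end Fermat.Agent.QuadRep
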