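import Mathlib

set_option autoImplicit false

/-!
# Rank two modules with a group action satisfying quadratic relations
-/

open Polynomial

namespace Fermat.Agent.QuadRep

section Matrix

variable {O : Type*} [CommRing O] [IsDomain O]

theorem matrix_eq_of_quadratic (F : Matrix (Fin 2) (Fin 2) O) (t e : O)
    (h : F * F - t • F + e • (1 : Matrix (Fin 2) (Fin 2) O) = 0)
    (hns : ∀ c : O, F ≠ c • (1 : Matrix (Fin 2) (Fin 2) O)) :
    F.trace = t ∧ F.det = e := by
  have h00 := congrFun (congrFun h 0) 0
  have h01 := congrFun (congrFun h 0) 1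
  have h10 := congrFun (congrFun h 1) 0
  have h11 := congrFun (congrFun h 1) 1
  simp only [Matrix.add_apply, Matrix.sub_apply, Matrix.mul_apply, Fin.sum_univ_two,
    Matrix.smul_apply, smul_eq_mul, Matrix.one_apply_eq, Matrix.zero_apply, mul_one] at h00 h11
  simp only [Matrix.add_apply, Matrix.sub_apply, Matrix.mul_apply, Fin.sum_univ_two,
    Matrix.smul_apply, smul_eq_mul, Matrix.zero_apply, mul_zero, add_zero,
    Matrix.one_apply_ne (show (0 : Fin 2) ≠ 1 by decide)] at h01
  simp only [Matrix.add_apply, Matrix.sub_apply, Matrix.mul_apply, Fin.sum_univ_two,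
    Matrix.smul_apply, smul_eq_mul, Matrix.zero_apply, mul_zero, add_zero,
    Matrix.one_apply_ne (show (1 : Fin 2) ≠ 0 by decide)] at h10
  have hns' : F 0 1 ≠ 0 ∨ F 1 0 ≠ 0 ∨ F 0 0 - F 1 1 ≠ 0 := by
    by_contra hcon
    push Not at hcon
    obtain ⟨h1, h2, h3⟩ := hcon
    apply hns (F 0 0)
    ext i j
    fin_cases i <;> fin_cases j
    · simp
    · simp [h1]
    · simp [h2]
    · simp; linear_combination -h3
  have htr : F 0 0 + F 1 1 = t := by
    rcases hns' with h1 | h1 | h1
    · have : (F 0 0 + F 1 1 - t) * F 0 1 = 0 := by linear_combination h01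
      rcases mul_eq_zero.mp this with h2 | h2
      · linear_combination h2
      · exact absurd h2 h1
    · have : (F 0 0 + F 1 1 - t) * F 1 0 = 0 := by linear_combination h10
      rcases mul_eq_zero.mp this with h2 | h2
      · linear_combination h2
      · exact absurd h2 h1
    · have : (F 0 0 + F 1 1 - t) * (F 0 0 - F 1 1) = 0 := by linear_combination h00 - h11
      rcases mul_eq_zero.mp this with h2 | h2
      · linear_combination h2
      · exact absurd h2 h1
  refine ⟨by rw [Matrix.trace_fin_two]; exact htr, ?_⟩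
  rw [Matrix.det_fin_two]
  linear_combination F 0 0 * htr - h00

end Matrix

section Rep

variable {O G M : Type*} [CommRing O] [IsDomain O] [Group G] [AddCommGroup M] [Module O M]
  [Module.Free O M] [Module.Finite O M]

theorem charpoly_of_quadratic (hr : Module.finrank O M = 2) (f : Module.End O M) (t e : O)
    (h : f * f - t • f + e • (1 : Module.End O M) = 0)
    (hns : ∀ c : O, f ≠ c • (1 : Module.End O M)) :
    LinearMap.charpoly f = X ^ 2 - C t * X + C e := by
  let b : Module.Basis (Fin 2) O M := Module.finBasisOfFinrankEq O M hr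
  let F := LinearMap.toMatrix b b f
  have hF : F * F - t • F + e • (1 : Matrix (Fin 2) (Fin 2) O) = 0 := by
    have := congrArg (LinearMap.toMatrix b b) h
    rw [map_add, map_sub, map_smul, map_smul, map_zero, LinearMap.toMatrix_mul,
      LinearMap.toMatrix_one] at this
    exact this
  have hFns : ∀ c : O, F ≠ c • (1 : Matrix (Fin 2) (Fin 2) O) := by
    intro c hc
    apply hns c
    apply (LinearMap.toMatrix b b).injective
    rw [map_smul, LinearMap.toMatrix_one]
    exact hc
  obtain ⟨h1, h2⟩ := matrix_eq_of_quadratic F t e hF hFns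
  rw [← LinearMap.charpoly_toMatrix f b, Matrix.charpoly_fin_two]
  change X ^ 2 - C F.trace * X + C F.det = _
  rw [h1, h2]

theorem charpoly_smul_one (hr : Module.finrank O M = 2) (c : O) :
    LinearMap.charpoly (c • (1 : Module.End O M)) = X ^ 2 - C (2 * c) * X + C (c * c) := by
  let b : Module.Basis (Fin 2) O M := Module.finBasisOfFinrankEq O M hr
  rw [← LinearMap.charpoly_toMatrix _ b, Matrix.charpoly_fin_two, map_smul,
    LinearMap.toMatrix_one]
  have h1 : (c • (1 : Matrix (Fin 2) (Fin 2) O)).trace = 2 * c := by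
    rw [Matrix.trace_smul, Matrix.trace_one]; simp [mul_comm]
  have h2 : (c • (1 : Matrix (Fin 2) (Fin 2) O)).det = c * c := by
    rw [Matrix.det_smul, Matrix.det_one]; simp [sq]
  rw [h1, h2]

theorem rankTwo_charpoly (hr : Module.finrank O M = 2) (ρ : G →* Module.End O M) (t : G → O)
    (ε : G →* O) (h : ∀ g, ρ g + ε g • ρ g⁻¹ = t g • (1 : Module.End O M))
    (hns : ∃ g, ∀ c : O, ρ g ≠ c • (1 : Module.End O M)) (g : G) :
    LinearMap.charpoly (ρ g) = X ^ 2 - C (t g) * X + C (ε g) := by
  have hnt : Nontrivial M := Module.nontrivial_of_finrank_pos (R := O) (by omega)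
  have hmul : ∀ g, ρ g * ρ g - t g • ρ g + ε g • (1 : Module.End O M) = 0 := by
    intro g
    have h1 : ρ g * (ρ g + ε g • ρ g⁻¹) = ρ g * (t g • 1) := by rw [h]
    rw [mul_add, mul_smul_comm, ← map_mul ρ g g⁻¹, mul_inv_cancel, map_one, mul_smul_comm,
      mul_one] at h1
    rw [← h1]; abel
  have hεne : ∀ g, ε g ≠ 0 := by
    intro g hg
    have h1 : ε g * ε g⁻¹ = 1 := by rw [← map_mul, mul_inv_cancel, map_one]
    rw [hg, zero_mul] at h1
    exact zero_ne_one h1
  by_cases hg : ∀ c : O, ρ g ≠ c • (1 : Module.End O M)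
  · exact charpoly_of_quadratic hr (ρ g) (t g) (ε g) (hmul g) hg
  · push Not at hg
    obtain ⟨c, hc⟩ := hg
    obtain ⟨k, hk⟩ := hns
    have hc0 : c ≠ 0 := by
      rintro rfl
      have h1 : ρ g * ρ g⁻¹ = 1 := by rw [← map_mul, mul_inv_cancel, map_one]
      rw [hc, zero_smul, zero_mul] at h1
      obtain ⟨m, hm⟩ := exists_ne (0 : M)
      apply hm
      have := congrArg (fun f : Module.End O M => f m) h1
      simpa using this.symm
    let b : Module.Basis (Fin 2) O M := Module.finBasisOfFinrankEq O M hr
    have hgk : ρ (g * k) = c • ρ k := by rw [map_mul, hc, smul_mul_assoc, one_mul]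
    have hgkns : ∀ a : O, ρ (g * k) ≠ a • (1 : Module.End O M) := by
      intro a ha
      rw [hgk] at ha
      -- the matrix of `ρ k` is scalar
      let F := LinearMap.toMatrix b b (ρ k)
      have hF : c • F = a • (1 : Matrix (Fin 2) (Fin 2) O) := by
        have := congrArg (LinearMap.toMatrix b b) ha
        rwa [map_smul, map_smul, LinearMap.toMatrix_one] at this
      apply hk (F 0 0)
      apply (LinearMap.toMatrix b b).injective
      rw [map_smul, LinearMap.toMatrix_one]
      change F = F 0 0 • 1
      have h00 := congrFun (congrFun hF 0) 0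
      have h01 := congrFun (congrFun hF 0) 1
      have h10 := congrFun (congrFun hF 1) 0
      have h11 := congrFun (congrFun hF 1) 1
      simp at h00 h01 h10 h11
      ext i j
      fin_cases i <;> fin_cases j
      · simp
      · simpa using h01.resolve_left hc0
      · simpa using h10.resolve_left hc0
      · simp
        exact mul_left_cancel₀ hc0 (h11.trans h00.symm)
    have hdet1 : LinearMap.det (ρ (g * k)) = ε (g * k) := by
      have h1 := charpoly_of_quadratic hr (ρ (g * k)) (t (g * k)) (ε (g * k)) (hmul _) hgkns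
      rw [LinearMap.det_eq_sign_charpoly_coeff, h1, hr]
      simp [coeff_C, coeff_X_pow]
    have hdet2 : LinearMap.det (ρ k) = ε k := by
      have h1 := charpoly_of_quadratic hr (ρ k) (t k) (ε k) (hmul _) hk
      rw [LinearMap.det_eq_sign_charpoly_coeff, h1, hr]
      simp [coeff_C, coeff_X_pow]
    have hε : ε g = c * c := by
      rw [hgk, LinearMap.det_smul, hr, hdet2, map_mul] at hdet1
      have := mul_right_cancel₀ (hεne k) hdet1
      rw [← this, sq]
    have ht : t g = 2 * c := by
      have h1 := hmul g
      rw [hc] at h1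
      obtain ⟨m, hm⟩ := exists_ne (0 : M)
      have h2 := congrArg (fun f : Module.End O M => f m) h1
      simp only [Module.End.mul_apply, LinearMap.add_apply, LinearMap.sub_apply,
        LinearMap.smul_apply, Module.End.one_apply, LinearMap.zero_apply, smul_smul] at h2
      rw [← sub_smul, ← add_smul, smul_eq_zero] at h2
      have h3 := h2.resolve_right hm
      rw [hε] at h3
      have h4 : c * (2 * c - t g) = 0 := by linear_combination h3
      have h5 := (mul_eq_zero.mp h4).resolve_left hc0
      linear_combination -h5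
    rw [hc, charpoly_smul_one hr, ht, hε]

end Rep

end Fermat.Agent.QuadRep
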