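import Fermat.Agent.QuadRep.Cyclo
import Fermat.Agent.FrobDensity.Final
import Fermat.Prelude.Def_GaloisRep_Adic
import Mathlib.LinearAlgebra.Basis.Basic
import Mathlib.LinearAlgebra.FreeModule.Basic

/-!
From a quadratic relation for Frobenius elements to a quadratic relation for all elements of the
absolute Galois group of `ℚ`.
-/

set_option autoImplicit false

namespace Fermat.Agent.QuadRep

open IsLocalRing

section Scalar

variable {O : Type*} [CommRing O] [IsLocalRing O] [IsAdicComplete (maximalIdeal O) O]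
  {Λ : Type*} [AddCommGroup Λ] [Module O Λ]

omit [IsLocalRing O] [IsAdicComplete (maximalIdeal O) O] in
theorem map_mem_of_mem_smul_top (f : Λ →ₗ[O] O) (I : Ideal O) {v : Λ}
    (hv : v ∈ I • (⊤ : Submodule O Λ)) : f v ∈ I := by
  have h : f v ∈ Submodule.map f (I • (⊤ : Submodule O Λ)) := Submodule.mem_map_of_mem hv
  rw [Submodule.map_smul''] at h
  exact Submodule.smul_le.mpr (fun r hr m _ => by
    rw [smul_eq_mul]; exact Ideal.mul_mem_right _ _ hr) h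

theorem scalar_of_forall [Module.Free O Λ] (D : Module.End O Λ)
    (h : ∀ n : ℕ, ∃ c : O, ∀ v : Λ, D v - c • v ∈ (maximalIdeal O ^ n) • (⊤ : Submodule O Λ)) :
    ∃ c : O, D = c • (1 : Module.End O Λ) := by
  classical
  let b := Module.Free.chooseBasis O Λ
  by_cases hne : Nonempty (Module.Free.ChooseBasisIndex O Λ)
  · obtain ⟨j₀⟩ := hne
    refine ⟨b.coord j₀ (D (b j₀)), b.ext fun j => ?_⟩
    refine b.ext_elem fun i => ?_
    rw [LinearMap.smul_apply, Module.End.one_apply, map_smul, Finsupp.smul_apply, b.repr_self,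
      smul_eq_mul]
    refine eq_of_forall_sub_mem_pow fun n => ?_
    obtain ⟨c, hc⟩ := h n
    have h1 : ∀ i j, b.repr (D (b j)) i - c * (Finsupp.single j (1 : O)) i ∈ maximalIdeal O ^ n := by
      intro i j
      have := map_mem_of_mem_smul_top (b.coord i) _ (hc (b j))
      rwa [map_sub, map_smul, b.coord_apply, b.coord_apply, b.repr_self, smul_eq_mul] at this
    have h2 := h1 j₀ j₀
    rw [Finsupp.single_eq_same, mul_one] at h2
    have h3 := Ideal.sub_mem _ (h1 i j) (Ideal.mul_mem_right ((Finsupp.single j (1 : O)) i) _ h2)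
    rw [b.coord_apply]
    convert h3 using 1
    ring
  · refine ⟨0, b.ext fun j => absurd ⟨j⟩ hne⟩

end Scalar

theorem exists_scalar_pow {O A : Type*} [CommRing O] [Ring A] [Algebra O A] (x y : A) (a d : O)
    (hxy : x * y = y * x) (h1 : x + y = a • (1 : A)) (h2 : x * y = d • (1 : A)) (j : ℕ) :
    ∃ c : O, x ^ j + y ^ j = c • (1 : A) := by
  induction j using Nat.twoStepInduction with
  | zero => exact ⟨2, by rw [pow_zero, pow_zero, two_smul]⟩
  | one => exact ⟨a, by rw [pow_one, pow_one, h1]⟩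
  | more j ih1 ih2 =>
    obtain ⟨c1, hc1⟩ := ih1
    obtain ⟨c2, hc2⟩ := ih2
    refine ⟨a * c2 - d * c1, ?_⟩
    have e : x ^ (j + 2) + y ^ (j + 2) = (x + y) * (x ^ (j + 1) + y ^ (j + 1))
        - (x * y) * (x ^ j + y ^ j) := by
      have hc : Commute x y := hxy
      have e1 : y * x ^ (j + 1) = x * y * x ^ j := by
        rw [pow_succ', ← mul_assoc, ← hxy]
      have e2 : x * y ^ (j + 1) = x * y * y ^ j := by
        rw [pow_succ', ← mul_assoc]
      rw [add_mul, mul_add, mul_add, mul_add, e1, e2, ← pow_succ', ← pow_succ']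
      abel
    rw [e, h1, h2, hc1, hc2, sub_smul, mul_smul, mul_smul, smul_mul_assoc, one_mul,
      smul_mul_assoc, one_mul]

section Main

variable {p : ℕ} [Fact p.Prime] {O : Type} [CommRing O] [IsLocalRing O]
  [IsAdicComplete (maximalIdeal O) O] {Λ : Type} [AddCommGroup Λ] [Module O Λ]

local notation "G" => (AlgebraicClosure ℚ ≃ₐ[ℚ] AlgebraicClosure ℚ)

omit [IsLocalRing O] [IsAdicComplete (maximalIdeal O) O] in
theorem quad_inv (ρ : G →* Module.End O Λ) (τ : G) (a d : O)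
    (h : ρ τ ^ 2 - a • ρ τ + d • (1 : Module.End O Λ) = 0) :
    ρ τ + d • ρ τ⁻¹ = a • (1 : Module.End O Λ) := by
  have h1 : ρ τ * ρ τ⁻¹ = 1 := by rw [← map_mul, mul_inv_cancel, map_one]
  have h2 := congrArg (· * ρ τ⁻¹) h
  simp only [add_mul, sub_mul, zero_mul, smul_mul_assoc, one_mul, sq, mul_assoc, h1, mul_one] at h2
  rw [sub_add_eq_add_sub, sub_eq_zero] at h2
  exact h2

theorem exists_quad_relation (hp : (p : O) ∈ maximalIdeal O) [Module.Free O Λ]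
    (ρ : G →* Module.End O Λ) (hρ : GaloisActionIsAdicContinuous O ρ) (S : Finset ℕ) (hpS : p ∈ S)
    (a : ℕ → O)
    (h : ∀ ℓ : ℕ, ℓ.Prime → ℓ ∉ S → ∀ A : ValuationSubring (AlgebraicClosure ℚ),
      A.LiesOverPrime ℓ → ∀ τ : G, A.IsFrobeniusAt τ ℓ →
        ρ τ ^ 2 - a ℓ • ρ τ + (ℓ : O) • (1 : Module.End O Λ) = 0) (σ : G) :
    ∃ c : O, ρ σ + cyc p O hp σ • ρ σ⁻¹ = c • (1 : Module.End O Λ) := by
  refine scalar_of_forall _ fun n => ?_
  obtain ⟨L₁, hL₁, h₁⟩ := hρ n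
  obtain ⟨L₂, hL₂, h₂⟩ := exists_finite_cyc (O := O) hp n
  obtain ⟨ℓ, hℓ, hℓS, A, hA, -, τ, hτ, ⟨j, hj⟩, -⟩ :=
    Fermat.Agent.FrobDensity.exists_frobenius_pow_eq (L₁ ⊔ L₂)
      (by
        have := hL₁
        have := hL₂
        exact IntermediateField.finiteDimensional_sup L₁ L₂) σ S
  have hℓp : ℓ ≠ p := fun e => hℓS (e ▸ hpS)
  have hrel := quad_inv ρ τ (a ℓ) ℓ (h ℓ hℓ hℓS A hA τ hτ)
  have hcyc := cyc_frobenius (O := O) hp hℓ hℓp hA hτ
  have hx : ρ τ * ((ℓ : O) • ρ τ⁻¹) = (ℓ : O) • (1 : Module.End O Λ) := by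
    rw [mul_smul_comm, ← map_mul, mul_inv_cancel, map_one]
  have hy : ((ℓ : O) • ρ τ⁻¹) * ρ τ = (ℓ : O) • (1 : Module.End O Λ) := by
    rw [smul_mul_assoc, ← map_mul, inv_mul_cancel, map_one]
  obtain ⟨c, hc⟩ := exists_scalar_pow (ρ τ) ((ℓ : O) • ρ τ⁻¹) (a ℓ) (ℓ : O) (hx.trans hy.symm)
    hrel hx j
  refine ⟨c, fun v => ?_⟩
  -- `g = σ⁻¹ τ ^ j` fixes `L₁ ⊔ L₂`
  set g : G := σ⁻¹ * τ ^ j with hg
  have hgx : ∀ x ∈ L₁ ⊔ L₂, g x = x := by
    intro x hx
    rw [hg, AlgEquiv.mul_apply, hj x hx, ← AlgEquiv.mul_apply, inv_mul_cancel, AlgEquiv.one_apply]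
  have hgx' : ∀ x ∈ L₁ ⊔ L₂, g⁻¹ x = x := by
    intro x hx
    conv_lhs => rw [← hgx x hx]
    rw [← AlgEquiv.mul_apply, inv_mul_cancel, AlgEquiv.one_apply]
  have hτj : τ ^ j = σ * g := by rw [hg, mul_inv_cancel_left]
  have hτj' : (τ ^ j)⁻¹ = g⁻¹ * σ⁻¹ := by rw [hτj, mul_inv_rev]
  have k1 : ∀ v, ρ g v - v ∈ (maximalIdeal O ^ n) • (⊤ : Submodule O Λ) :=
    h₁ g fun x hx => hgx x ((le_sup_left : L₁ ≤ L₁ ⊔ L₂) hx)
  have k2 : ∀ v, ρ g⁻¹ v - v ∈ (maximalIdeal O ^ n) • (⊤ : Submodule O Λ) :=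
    h₁ g⁻¹ fun x hx => hgx' x ((le_sup_left : L₁ ≤ L₁ ⊔ L₂) hx)
  have k3 : cyc p O hp g - 1 ∈ maximalIdeal O ^ n :=
    h₂ g fun x hx => hgx x ((le_sup_right : L₂ ≤ L₁ ⊔ L₂) hx)
  have hc' : ρ (σ * g) v + (cyc p O hp (σ * g)) • ρ (g⁻¹ * σ⁻¹) v = c • v := by
    rw [← hτj, ← hτj', map_pow, map_pow, hcyc, ← inv_pow, map_pow]
    have := congrArg (fun f : Module.End O Λ => f v) hc
    simpa [smul_pow] using this
  have e : (ρ σ + cyc p O hp σ • ρ σ⁻¹) v - c • v =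
      -(ρ σ (ρ g v - v)) - (cyc p O hp (σ * g)) • (ρ g⁻¹ (ρ σ⁻¹ v) - ρ σ⁻¹ v)
        - (cyc p O hp σ * (cyc p O hp g - 1)) • ρ σ⁻¹ v := by
    rw [← hc']
    simp only [map_mul, Module.End.mul_apply, LinearMap.add_apply, LinearMap.smul_apply, map_sub,
      smul_sub, mul_sub, sub_smul, mul_one]
    abel
  rw [e]
  refine Submodule.sub_mem _ (Submodule.sub_mem _ (Submodule.neg_mem _ ?_) ?_) ?_
  · have : ρ σ (ρ g v - v) ∈ Submodule.map (ρ σ) ((maximalIdeal O ^ n) • (⊤ : Submodule O Λ)) :=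
      Submodule.mem_map_of_mem (k1 v)
    rw [Submodule.map_smul''] at this
    exact Submodule.smul_mono le_rfl le_top this
  · exact Submodule.smul_mem _ _ (k2 _)
  · exact Submodule.smul_mem_smul (Ideal.mul_mem_left _ _ k3) Submodule.mem_top

end Main

end Fermat.Agent.QuadRep
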