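import Fermat.Agent.QuadRep.RootsOfUnity
import Fermat.Agent.Frob.QbarInst
import Mathlib.NumberTheory.Cyclotomic.CyclotomicCharacter
import Mathlib.RingTheory.RootsOfUnity.AlgebraicallyClosed
import Mathlib.RingTheory.AdicCompletion.RingHom
import Mathlib.NumberTheory.Padics.RingHoms

/-!
The `p`-adic cyclotomic character of the absolute Galois group of `ℚ` with values in a complete
local ring `O` in which `p` is topologically nilpotent.
-/

set_option autoImplicit false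

namespace Fermat.Agent.QuadRep

open Fermat.Agent.Frob IsLocalRing

section

variable (p : ℕ) [Fact p.Prime] (O : Type*) [CommRing O] [IsLocalRing O]

omit [Fact p.Prime] in
theorem ringChar_dvd (hp : (p : O) ∈ maximalIdeal O) (n : ℕ) :
    ringChar (O ⧸ (maximalIdeal O) ^ n) ∣ p ^ n := by
  rw [← ringChar.spec, ← map_natCast (Ideal.Quotient.mk ((maximalIdeal O) ^ n)),
    Ideal.Quotient.eq_zero_iff_mem, Nat.cast_pow]
  exact Ideal.pow_mem_pow hp n

/-- The projection `ℤ_p → O / 𝔪 ^ n`. -/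
noncomputable def quotHom (hp : (p : O) ∈ maximalIdeal O) (n : ℕ) :
    ℤ_[p] →+* O ⧸ (maximalIdeal O) ^ n :=
  (ZMod.castHom (ringChar_dvd p O hp n) (O ⧸ (maximalIdeal O) ^ n)).comp (PadicInt.toZModPow n)

theorem factorPow_comp_quotHom (hp : (p : O) ∈ maximalIdeal O) {m n : ℕ} (hle : m ≤ n) :
    (Ideal.Quotient.factorPow (maximalIdeal O) hle).comp (quotHom p O hp n) =
      quotHom p O hp m := by
  rw [quotHom, quotHom, ← PadicInt.zmod_cast_comp_toZModPow m n hle, ← RingHom.comp_assoc,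
    ← RingHom.comp_assoc]
  congr 1
  exact Subsingleton.elim _ _

variable [IsAdicComplete (maximalIdeal O) O]

/-- The canonical map `ℤ_p → O`. -/
noncomputable def padicHom (hp : (p : O) ∈ maximalIdeal O) : ℤ_[p] →+* O :=
  IsAdicComplete.liftRingHom (maximalIdeal O) (quotHom p O hp)
    (fun hle => factorPow_comp_quotHom p O hp hle)

theorem mk_padicHom (hp : (p : O) ∈ maximalIdeal O) (n : ℕ) (x : ℤ_[p]) :
    Ideal.Quotient.mk ((maximalIdeal O) ^ n) (padicHom p O hp x) =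
      ZMod.castHom (ringChar_dvd p O hp n) (O ⧸ (maximalIdeal O) ^ n) (PadicInt.toZModPow n x) := by
  rw [padicHom, IsAdicComplete.mk_liftRingHom]
  rfl

theorem padicHom_sub_mem (hp : (p : O) ∈ maximalIdeal O) (n a : ℕ) (x : ℤ_[p])
    (h : PadicInt.toZModPow n x = a) : padicHom p O hp x - a ∈ (maximalIdeal O) ^ n := by
  rw [← Ideal.Quotient.eq, mk_padicHom, h, map_natCast, map_natCast]

/-- The cyclotomic character with values in `O`. -/
noncomputable def cyc (hp : (p : O) ∈ maximalIdeal O) :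
    (AlgebraicClosure ℚ ≃ₐ[ℚ] AlgebraicClosure ℚ) →* O :=
  (padicHom p O hp : ℤ_[p] →* O).comp ((Units.coeHom ℤ_[p]).comp
    ((cyclotomicCharacter (AlgebraicClosure ℚ) p).comp
      (MulSemiringAction.toRingAut (AlgebraicClosure ℚ ≃ₐ[ℚ] AlgebraicClosure ℚ)
        (AlgebraicClosure ℚ))))

variable {p O}

theorem modEq_of_pow_eq {M : Type*} [CommMonoid M] {ζ : M} {N : ℕ} (h : IsPrimitiveRoot ζ N)
    (hN : 0 < N) {a b : ℕ} (e : ζ ^ a = ζ ^ b) : a ≡ b [MOD N] := by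
  refine h.pow_inj (Nat.mod_lt _ hN) (Nat.mod_lt _ hN) ?_
  have h1 : ∀ c : ℕ, ζ ^ (c % N) = ζ ^ c := fun c => by
    rw [h.eq_orderOf, pow_mod_orderOf]
  rw [h1, h1, e]

theorem cyc_sub_mem (hp : (p : O) ∈ maximalIdeal O) (n a : ℕ)
    (σ : AlgebraicClosure ℚ ≃ₐ[ℚ] AlgebraicClosure ℚ)
    (h : ∀ μ : AlgebraicClosure ℚ, μ ^ (p ^ n) = 1 → σ μ = μ ^ a) :
    cyc p O hp σ - a ∈ (maximalIdeal O) ^ n := by
  refine padicHom_sub_mem p O hp n a _ ?_
  obtain ⟨ζ, hζ⟩ := HasEnoughRootsOfUnity.exists_primitiveRoot (AlgebraicClosure ℚ) (p ^ n)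
  have h1 := h ζ hζ.pow_eq_one
  have h2 := cyclotomicCharacter.spec p (n := n)
    (MulSemiringAction.toRingAut (AlgebraicClosure ℚ ≃ₐ[ℚ] AlgebraicClosure ℚ)
        (AlgebraicClosure ℚ) σ) ζ hζ.pow_eq_one
  have h3 : (MulSemiringAction.toRingAut (AlgebraicClosure ℚ ≃ₐ[ℚ] AlgebraicClosure ℚ)
        (AlgebraicClosure ℚ) σ) ζ = σ ζ := rfl
  rw [h3, h1] at h2
  have hpp : p.Prime := Fact.out
  have h4 := (ZMod.natCast_eq_natCast_iff _ _ (p ^ n)).mpr
    (modEq_of_pow_eq hζ (pow_pos hpp.pos n) h2)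
  rw [h4, ZMod.natCast_val, ZMod.cast_id', id]
  rfl

theorem eq_of_forall_sub_mem_pow {x y : O}
    (h : ∀ n, x - y ∈ (maximalIdeal O) ^ n) : x = y := by
  rw [← sub_eq_zero]
  refine IsHausdorff.haus (I := maximalIdeal O) inferInstance _ (fun n => ?_)
  rw [SModEq.zero, smul_eq_mul, Ideal.mul_top]
  exact h n

theorem cyc_eq_natCast (hp : (p : O) ∈ maximalIdeal O) (a : ℕ)
    (σ : AlgebraicClosure ℚ ≃ₐ[ℚ] AlgebraicClosure ℚ)
    (h : ∀ (n : ℕ) (μ : AlgebraicClosure ℚ), μ ^ (p ^ n) = 1 → σ μ = μ ^ a) :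
    cyc p O hp σ = a :=
  eq_of_forall_sub_mem_pow fun n => cyc_sub_mem hp n a σ (h n)

theorem cyc_frobenius (hp : (p : O) ∈ maximalIdeal O) {ℓ : ℕ} (hℓ : ℓ.Prime) (hℓp : ℓ ≠ p)
    {A : ValuationSubring (AlgebraicClosure ℚ)} (hA : A.LiesOverPrime ℓ)
    {σ : AlgebraicClosure ℚ ≃ₐ[ℚ] AlgebraicClosure ℚ} (hσ : A.IsFrobeniusAt σ ℓ) :
    cyc p O hp σ = ℓ := by
  have hpp : p.Prime := Fact.out
  refine cyc_eq_natCast hp ℓ σ (fun n μ hμ => ?_)
  refine frobenius_smul_root hℓ hA hσ (N := p ^ n) (pow_pos hpp.pos n) ?_ μ hμ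
  exact Nat.Coprime.pow_left n ((Nat.coprime_primes hpp hℓ).mpr (Ne.symm hℓp))

theorem cyc_inertia (hp : (p : O) ∈ maximalIdeal O) {ℓ : ℕ} (hℓ : ℓ.Prime) (hℓp : ℓ ≠ p)
    {A : ValuationSubring (AlgebraicClosure ℚ)} (hA : A.LiesOverPrime ℓ)
    {σ : AlgebraicClosure ℚ ≃ₐ[ℚ] AlgebraicClosure ℚ} (hσ : σ ∈ A.inertiaSubgroupIn ℚ) :
    cyc p O hp σ = 1 := by
  have hpp : p.Prime := Fact.out
  rw [← Nat.cast_one]
  refine cyc_eq_natCast hp 1 σ (fun n μ hμ => ?_)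
  rw [pow_one]
  refine inertia_smul_root hℓ hA hσ (N := p ^ n) (pow_pos hpp.pos n) ?_ μ hμ
  exact Nat.Coprime.pow_left n ((Nat.coprime_primes hpp hℓ).mpr (Ne.symm hℓp))

theorem exists_finite_cyc (hp : (p : O) ∈ maximalIdeal O) (n : ℕ) :
    ∃ L : IntermediateField ℚ (AlgebraicClosure ℚ), FiniteDimensional ℚ L ∧
      ∀ σ : AlgebraicClosure ℚ ≃ₐ[ℚ] AlgebraicClosure ℚ, (∀ x ∈ L, σ x = x) →
        cyc p O hp σ - 1 ∈ (maximalIdeal O) ^ n := by
  obtain ⟨ζ, hζ⟩ := HasEnoughRootsOfUnity.exists_primitiveRoot (AlgebraicClosure ℚ) (p ^ n)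
  refine ⟨IntermediateField.adjoin ℚ {ζ}, ?_, fun σ hσ => ?_⟩
  · exact IntermediateField.adjoin.finiteDimensional (Algebra.IsIntegral.isIntegral ζ)
  · have hpp : p.Prime := Fact.out
    have h1 := cyc_sub_mem hp n 1 σ (fun μ hμ => by
      obtain ⟨i, -, rfl⟩ := hζ.eq_pow_of_pow_eq_one hμ
      rw [pow_one]
      refine hσ _ ?_
      exact pow_mem (IntermediateField.mem_adjoin_simple_self ℚ ζ) i)
    simpa using h1

end

end Fermat.Agent.QuadRep
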