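import Mathlib

set_option autoImplicit false

/-!
# Groups acting with quadratic relations

If every `g` in a group `G` acting on a nonzero finite-dimensional vector space `V` over an
algebraically closed field of characteristic `≠ 2` satisfies `g + ε(g) g⁻¹ = t(g)` (scalar), then
there is an invariant line or an invariant plane on which not every `g` acts by a scalar.
-/

namespace Fermat.Agent.QuadRep

section Burnside

variable {k R M : Type*} [Field k] [IsAlgClosed k] [Ring R] [Algebra k R] [AddCommGroup M]
  [Module k M] [Module R M] [IsScalarTower k R M] [IsSimpleModule R M] [FiniteDimensional k M]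

/-- Burnside's theorem. -/
theorem burnside (f : Module.End k M) : ∃ r : R, ∀ m : M, f m = r • m := by
  have hbij := IsSimpleModule.algebraMap_end_bijective_of_isAlgClosed (A := R) (V := M) k
  -- `f` is linear over `End R M`
  let F : Module.End (Module.End R M) M :=
    { toFun := f
      map_add' := f.map_add
      map_smul' := by
        intro φ m
        obtain ⟨c, rfl⟩ := hbij.2 φ
        simp }
  let b := Module.finBasis k M
  classical
  obtain ⟨r, hr⟩ := jacobson_density F (Finset.univ.image b)
  refine ⟨r, fun m => ?_⟩
  have hrl : ∀ m : M, r • m = (Module.toModuleEnd k (S := R) M r) m := fun m => rfl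
  rw [hrl]
  have : f = Module.toModuleEnd k (S := R) M r := by
    refine b.ext fun i => ?_
    exact hr (b i) (Finset.mem_image_of_mem _ (Finset.mem_univ i))
  exact congrArg (fun g : Module.End k M => g m) this

end Burnside

section Quadratic

variable {E G A : Type*} [Field E] [Group G] [Ring A] [Algebra E A]

/-- If `ρ g + ε g • ρ g⁻¹` is a scalar for every `g`, every linear combination of the `ρ g`
satisfies a quadratic equation. -/
theorem quadratic_of_mem_span (h2 : (2 : E) ≠ 0) (ρ : G →* A) (t : G → E) (ε : G →* E)
    (h : ∀ g, ρ g + ε g • ρ g⁻¹ = t g • (1 : A)) {x : A}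
    (hx : x ∈ Submodule.span E (Set.range ρ)) :
    ∃ s d : E, x * x - s • x + d • (1 : A) = 0 := by
  classical
  let X : (G →₀ E) →ₗ[E] A := Finsupp.linearCombination E (fun g => ρ g)
  let Y : (G →₀ E) →ₗ[E] A := Finsupp.linearCombination E (fun g => ε g • ρ g⁻¹)
  let T : (G →₀ E) →ₗ[E] E := Finsupp.linearCombination E t
  have hXs : ∀ g a, X (Finsupp.single g a) = a • ρ g := fun g a => by
    simp [X, Finsupp.linearCombination_single]
  have hYs : ∀ g a, Y (Finsupp.single g a) = a • (ε g • ρ g⁻¹) := fun g a => by
    simp [Y, Finsupp.linearCombination_single]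
  have hTs : ∀ g a, T (Finsupp.single g a) = a • t g := fun g a => by
    simp [T, Finsupp.linearCombination_single]
  have h1 : ∀ c, X c + Y c = T c • (1 : A) := by
    intro c
    induction c using Finsupp.induction_linear with
    | zero => simp
    | add c d hc hd =>
      rw [map_add, map_add, map_add, add_smul, ← hc, ← hd]; abel
    | single g a =>
      rw [hXs, hYs, hTs, ← smul_add, h, smul_smul, smul_eq_mul]
  have hεinv : ∀ g h : G, ε g = ε (g * h⁻¹) * ε h := by
    intro g h
    rw [← map_mul]; simp
  have h2' : ∀ c d, X c * Y d + X d * Y c ∈ Submodule.span E {(1 : A)} := by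
    intro c d
    induction c using Finsupp.induction_linear with
    | zero => simp
    | add c c' hc hc' =>
      have : X (c + c') * Y d + X d * Y (c + c') =
          (X c * Y d + X d * Y c) + (X c' * Y d + X d * Y c') := by
        rw [map_add, map_add]; noncomm_ring
      rw [this]
      exact Submodule.add_mem _ hc hc'
    | single g a =>
      induction d using Finsupp.induction_linear with
      | zero => simp
      | add d d' hd hd' =>
        have : X (Finsupp.single g a) * Y (d + d') + X (d + d') * Y (Finsupp.single g a) =
            (X (Finsupp.single g a) * Y d + X d * Y (Finsupp.single g a)) +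
            (X (Finsupp.single g a) * Y d' + X d' * Y (Finsupp.single g a)) := by
          rw [map_add, map_add]; noncomm_ring
        rw [this]
        exact Submodule.add_mem _ hd hd'
      | single k b =>
        have key : ρ g * (ε k • ρ k⁻¹) + ρ k * (ε g • ρ g⁻¹) =
            (ε k * t (g * k⁻¹)) • (1 : A) := by
          have h3 := h (g * k⁻¹)
          rw [mul_smul, ← h3, smul_add, smul_smul, mul_comm (ε k), ← hεinv g k, mul_smul_comm,
            mul_smul_comm, ← map_mul, ← map_mul]
          simp
        have : X (Finsupp.single g a) * Y (Finsupp.single k b) +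
            X (Finsupp.single k b) * Y (Finsupp.single g a) =
            (a * b) • (ρ g * (ε k • ρ k⁻¹) + ρ k * (ε g • ρ g⁻¹)) := by
          rw [hXs, hXs, hYs, hYs, smul_mul_smul_comm, smul_mul_smul_comm, mul_comm b a, ← smul_add]
        rw [this, key, smul_smul]
        exact Submodule.smul_mem _ _ (Submodule.mem_span_singleton_self _)
  rw [Finsupp.mem_span_range_iff_exists_finsupp] at hx
  obtain ⟨c, hc⟩ := hx
  have hxc : X c = x := by
    rw [← hc]; rfl
  obtain ⟨d, hd⟩ := Submodule.mem_span_singleton.mp (h2' c c)
  have hY : Y c = T c • (1 : A) - x := by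
    rw [← hxc, ← h1 c]; abel
  rw [hxc, hY] at hd
  refine ⟨T c, d / 2, ?_⟩
  have hd' : d • (1 : A) = (2 : E) • (T c • x - x * x) := by
    rw [hd, two_smul]
    simp only [mul_sub, mul_smul_comm, mul_one]
  have : (d / 2) • (1 : A) = T c • x - x * x := by
    rw [div_eq_inv_mul, mul_smul, hd', smul_smul, inv_mul_cancel₀ h2, one_smul]
  rw [this]; abel

end Quadratic

section Main

variable {E G V : Type*} [Field E] [IsAlgClosed E] [Group G] [AddCommGroup V] [Module E V]
  [FiniteDimensional E V]

open Module

/-- An irreducible invariant subspace has dimension at most two. -/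
theorem exists_invariant [Nontrivial V] (h2 : (2 : E) ≠ 0) (ρ : G →* Module.End E V) (t : G → E)
    (ε : G →* E) (h : ∀ g, ρ g + ε g • ρ g⁻¹ = t g • (1 : Module.End E V)) :
    ∃ W : Submodule E V, (∀ g, ∀ w ∈ W, ρ g w ∈ W) ∧
      (Module.finrank E W = 1 ∨
        (Module.finrank E W = 2 ∧ ∃ g, ∀ c : E, ∃ w ∈ W, ρ g w ≠ c • w)) := by
  classical
  let R : Subalgebra E (Module.End E V) := Algebra.adjoin E (Set.range ρ)
  have hspan : ∀ r : R, (r : Module.End E V) ∈ Submodule.span E (Set.range ρ) := by
    intro r
    have := r.2
    rw [← Subalgebra.mem_toSubmodule, Algebra.adjoin_eq_span] at this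
    have hcl : (Submonoid.closure (Set.range ρ) : Set (Module.End E V)) = Set.range ρ := by
      have : Set.range ρ = (MonoidHom.mrange ρ : Set (Module.End E V)) := rfl
      rw [this, Submonoid.closure_eq]
    rwa [hcl] at this
  have hart : IsArtinian R V := isArtinian_of_tower E inferInstance
  obtain ⟨W, hW⟩ : ∃ W : Submodule R V, IsAtom W := by
    have : IsAtomic (Submodule R V) := inferInstance
    rcases this.eq_bot_or_exists_atom_le ⊤ with h0 | ⟨W, hW, -⟩
    · exact absurd h0 top_ne_bot
    · exact ⟨W, hW⟩
  have hsimp : IsSimpleModule R W := (isSimpleModule_iff_isAtom).mpr hW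
  let W' : Submodule E V := W.restrictScalars E
  have hW'mem : ∀ x, x ∈ W' ↔ x ∈ W := fun x => Iff.rfl
  have hinv : ∀ g, ∀ w ∈ W', ρ g w ∈ W' := by
    intro g w hw
    exact W.smul_mem (⟨ρ g, Algebra.subset_adjoin ⟨g, rfl⟩⟩ : R) hw
  refine ⟨W', hinv, ?_⟩
  have hfd : FiniteDimensional E W := inferInstanceAs (FiniteDimensional E W')
  have hpos : 0 < Module.finrank E W' := by
    have : Nontrivial W' := by
      have := IsSimpleModule.nontrivial R W
      exact this
    exact Module.finrank_pos
  -- dimension at most two
  have hle : Module.finrank E W' ≤ 2 := by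
    by_contra hcon
    push Not at hcon
    let b := Module.finBasis E W'
    let i0 : Fin (Module.finrank E W') := ⟨0, by omega⟩
    let i1 : Fin (Module.finrank E W') := ⟨1, by omega⟩
    let i2 : Fin (Module.finrank E W') := ⟨2, by omega⟩
    let f : Module.End E W' := b.constr E (fun i => if i = i0 then b i1 else
      if i = i1 then b i2 else 0)
    have hi10 : i1 ≠ i0 := by simp [i1, i0]
    have hf0 : f (b i0) = b i1 := by
      rw [Basis.constr_basis, if_pos rfl]
    have hf1 : f (b i1) = b i2 := by
      rw [Basis.constr_basis, if_neg hi10, if_pos rfl]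
    obtain ⟨r, hr⟩ := burnside (k := E) (R := R) (M := W) f
    obtain ⟨s, d, hsd⟩ := quadratic_of_mem_span h2 ρ t ε h (hspan r)
    have hrel : (r : Module.End E V) ((r : Module.End E V) (b i0 : V))
        - s • ((r : Module.End E V) (b i0 : V)) + d • (b i0 : V) = 0 := by
      have := congrArg (fun g : Module.End E V => g (b i0 : V)) hsd
      simpa using this
    have hr0 : (r : Module.End E V) (b i0 : V) = (b i1 : V) :=
      (congrArg (Subtype.val : W' → V) (hf0.symm.trans (hr (b i0)))).symm
    have hr1 : (r : Module.End E V) (b i1 : V) = (b i2 : V) :=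
      (congrArg (Subtype.val : W' → V) (hf1.symm.trans (hr (b i1)))).symm
    rw [hr0, hr1] at hrel
    have hrel' : b i2 - s • b i1 + d • b i0 = 0 := by
      apply Subtype.ext
      simpa using hrel
    have := congrArg (fun x => b.repr x i2) hrel'
    simp [i0, i1, i2] at this
  interval_cases hn : Module.finrank E W'
  · exact Or.inl rfl
  · refine Or.inr ⟨rfl, ?_⟩
    by_contra hcon
    push Not at hcon
    -- all `g` act as scalars on `W`
    let b := Module.finBasis E W'
    rw [hn] at b
    let U : Submodule R V :=
      { carrier := {x | x ∈ Submodule.span E {(b 0 : V)}}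
        add_mem' := fun hx hy => Submodule.add_mem (Submodule.span E {(b 0 : V)}) hx hy
        zero_mem' := Submodule.zero_mem (Submodule.span E {(b 0 : V)})
        smul_mem' := by
          intro r x hx
          change (r : Module.End E V) x ∈ Submodule.span E {(b 0 : V)}
          have hx' : x ∈ Submodule.span E {(b 0 : V)} := hx
          have hr := hspan r
          generalize (r : Module.End E V) = r' at hr
          induction hr using Submodule.span_induction with
          | mem y hy =>
            obtain ⟨g, rfl⟩ := hy
            obtain ⟨c, hc⟩ := hcon g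
            obtain ⟨a, rfl⟩ := Submodule.mem_span_singleton.mp hx'
            rw [map_smul, hc _ (b 0).2]
            exact Submodule.smul_mem _ _ (Submodule.smul_mem _ _
              (Submodule.mem_span_singleton_self _))
          | zero => simp
          | add y z _ _ hy hz =>
            rw [LinearMap.add_apply]; exact Submodule.add_mem _ hy hz
          | smul a y _ hy =>
            rw [LinearMap.smul_apply]; exact Submodule.smul_mem _ _ hy }
    have hUW : U ≤ W := by
      intro x hx
      have hx' : x ∈ Submodule.span E {(b 0 : V)} := hx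
      obtain ⟨a, rfl⟩ := Submodule.mem_span_singleton.mp hx'
      exact W'.smul_mem a (b 0).2
    have hU0 : U ≠ ⊥ := by
      intro h0
      have h1 : (b 0 : V) ∈ U := Submodule.mem_span_singleton_self (R := E) (b 0 : V)
      rw [h0, Submodule.mem_bot] at h1
      exact b.ne_zero 0 (Subtype.ext h1)
    have hUeq : U = W := by
      rcases hW.le_iff.mp hUW with h0 | h0
      · exact absurd h0 hU0
      · exact h0
    have hb1 : (b 1 : V) ∈ U := by
      rw [hUeq]; exact (b 1).2
    have hb1' : (b 1 : V) ∈ Submodule.span E {(b 0 : V)} := hb1
    obtain ⟨a, ha⟩ := Submodule.mem_span_singleton.mp hb1'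
    have ha' : a • b 0 = b 1 := Subtype.ext ha
    have := congrArg (fun x => b.repr x 1) ha'
    simp at this

end Main

end Fermat.Agent.QuadRep
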