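import Fermat.Agent.QuadRep.Core
import Fermat.Agent.QuadRep.Alg
import Fermat.Agent.QuadRep.DVRExt
import Mathlib.FieldTheory.IsAlgClosed.AlgebraicClosure

/-!
**Main theorem**: a finite free module over a complete discrete valuation ring of characteristic
zero with a continuous action of the absolute Galois group of `ℚ`, such that almost all Frobenius
elements satisfy `τ ^ 2 - a_ℓ τ + ℓ = 0`, gives a two-dimensional Galois representation (over a
finite extension of the coefficient ring) with characteristic polynomials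
`X ^ 2 - a_ℓ X + ℓ`.
-/

set_option autoImplicit false
set_option linter.unusedSectionVars false

namespace Fermat.Agent.QuadRep

open IsLocalRing Polynomial

local notation "G" => (AlgebraicClosure ℚ ≃ₐ[ℚ] AlgebraicClosure ℚ)

section Span

variable (O : Type) [CommRing O] [IsDomain O] [IsDiscreteValuationRing O]
  [IsAdicComplete (maximalIdeal O) O] [CharZero O]
  (K : Type) [Field K] [Algebra O K] [IsFractionRing O K]
  (E : Type) [Field E] [Algebra K E] [Algebra O E] [IsScalarTower O K E]
  [Algebra.IsAlgebraic K E]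

/-- The field generated by the coordinates of a basis of a subspace. -/
theorem exists_field_of_definition {r : ℕ} (W : Submodule E (Fin r → E)) :
    ∃ L : IntermediateField K E, FiniteDimensional K L ∧
      ∀ (_ : FiniteDimensional K L), W ≤ Submodule.span E (incl (integralClosure O L) E r ''
        (lat (integralClosure O L) W : Set (Fin r → integralClosure O L))) := by
  let b := Module.finBasis E W
  let L : IntermediateField K E := IntermediateField.adjoin K
    (Set.range (fun ij : Fin (Module.finrank E W) × Fin r => (b ij.1 : Fin r → E) ij.2))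
  refine ⟨L, ?_, ?_⟩
  · refine IntermediateField.finiteDimensional_adjoin (fun x _ => ?_)
    exact (Algebra.IsAlgebraic.isAlgebraic x).isIntegral
  · intro hfd
    have hfrac : IsFractionRing (integralClosure O L) L := by
      exact integralClosure.isFractionRing_of_finite_extension K L
    have hmem : ∀ i j, (b i : Fin r → E) j ∈ L := fun i j =>
      IntermediateField.subset_adjoin K _ ⟨(i, j), rfl⟩
    have hb : ∀ i, (b i : Fin r → E) ∈ Submodule.span E (incl (integralClosure O L) E r ''
        (lat (integralClosure O L) W : Set (Fin r → integralClosure O L))) := by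
      intro i
      obtain ⟨d, hd⟩ := IsLocalization.exist_integer_multiples_of_finite
        (nonZeroDivisors (integralClosure O L)) (fun j : Fin r => (⟨(b i : Fin r → E) j, hmem i j⟩ : L))
      choose z hz using hd
      have hd0 : algebraMap (integralClosure O L) E d ≠ 0 := by
        have h1 : (d : integralClosure O L) ≠ 0 := nonZeroDivisors.coe_ne_zero d
        intro h
        apply h1
        exact Subtype.ext (Subtype.ext h)
      have hz' : incl (integralClosure O L) E r z =
          algebraMap (integralClosure O L) E d • (b i : Fin r → E) := by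
        ext j
        rw [incl_apply, Pi.smul_apply, smul_eq_mul]
        have := congrArg (algebraMap L E) (hz j)
        rw [Algebra.smul_def, map_mul] at this
        exact this
      have hzW : z ∈ lat (integralClosure O L) W := by
        change incl (integralClosure O L) E r z ∈ W
        rw [hz']
        exact W.smul_mem _ (b i).2
      have : (b i : Fin r → E) = (algebraMap (integralClosure O L) E d)⁻¹ •
          incl (integralClosure O L) E r z := by
        rw [hz', smul_smul, inv_mul_cancel₀ hd0, one_smul]
      rw [this]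
      exact Submodule.smul_mem _ _ (Submodule.subset_span ⟨z, hzW, rfl⟩)
    intro w hw
    have hw' : (⟨w, hw⟩ : W) ∈ Submodule.span E (Set.range b) := by
      rw [b.span_eq]; trivial
    have h2 := Submodule.mem_map_of_mem (f := W.subtype) hw'
    rw [Submodule.map_span] at h2
    refine Submodule.span_le.mpr ?_ h2
    rintro _ ⟨_, ⟨i, rfl⟩, rfl⟩
    exact hb i

end Span

section Main

/-- **Main theorem.** -/
theorem exists_galoisRepAdic (p : ℕ) [Fact p.Prime]
    (O : Type) [CommRing O] [IsDomain O] [IsDiscreteValuationRing O]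
    [IsAdicComplete (maximalIdeal O) O] [Finite (ResidueField O)] [CharZero O]
    (hp : (p : O) ∈ maximalIdeal O)
    (Λ : Type) [AddCommGroup Λ] [Module O Λ] [Module.Free O Λ] [Module.Finite O Λ] [Nontrivial Λ]
    (ρ : G →* Module.End O Λ) (hρ : GaloisActionIsAdicContinuous O ρ)
    (S : Finset ℕ) (hpS : p ∈ S) (a : ℕ → O)
    (h : ∀ ℓ : ℕ, ℓ.Prime → ℓ ∉ S → ∀ A : ValuationSubring (AlgebraicClosure ℚ),
      A.LiesOverPrime ℓ → ∀ τ : G, A.IsFrobeniusAt τ ℓ →
        ρ τ ^ 2 - a ℓ • ρ τ + (ℓ : O) • (1 : Module.End O Λ) = 0) :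
    ∃ (𝒪'' : Type) (_ : CommRing 𝒪'') (_ : IsDomain 𝒪'') (_ : IsDiscreteValuationRing 𝒪'')
        (_ : IsAdicComplete (IsLocalRing.maximalIdeal 𝒪'') 𝒪'')
        (_ : Finite (IsLocalRing.ResidueField 𝒪'')) (_ : CharZero 𝒪'')
        (_ : Algebra O 𝒪'') (_ : Module.Finite O 𝒪'') (_ : IsLocalHom (algebraMap O 𝒪'')),
      Function.Injective (algebraMap O 𝒪'') ∧
      ∃ ρ' : GaloisRepAdic 𝒪'',
        (∀ ℓ : ℕ, ℓ.Prime → ℓ ∉ S → ∀ A : ValuationSubring (AlgebraicClosure ℚ),
          A.LiesOverPrime ℓ → ∀ τ : G, A.IsFrobeniusAt τ ℓ →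
            LinearMap.charpoly (ρ'.ρ τ) =
              X ^ 2 - C (algebraMap O 𝒪'' (a ℓ)) * X + C ((ℓ : 𝒪''))) ∧
        (∀ q : ℕ, q.Prime → q ≠ p → (∀ P : ValuationSubring (AlgebraicClosure ℚ),
          P.LiesOverPrime q → ∀ σ ∈ P.inertiaSubgroupIn ℚ, ρ σ = 1) → ρ'.IsUnramifiedAt q) := by
  classical
  choose t ht using exists_quad_relation hp ρ hρ S hpS a h
  -- matrices
  let b := Module.finBasis O Λ
  let r := Module.finrank O Λ
  let P : G →* Matrix (Fin r) (Fin r) O :=
    ((LinearMap.toMatrixAlgEquiv b : Module.End O Λ →* Matrix (Fin r) (Fin r) O)).comp ρ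
  have hPdef : ∀ g, P g = LinearMap.toMatrixAlgEquiv b (ρ g) := fun g => rfl
  have hquad : ∀ g, P g + cyc p O hp g • P g⁻¹ = t g • (1 : Matrix (Fin r) (Fin r) O) := by
    intro g
    rw [hPdef, hPdef, ← map_smul, ← map_add, ht, map_smul, map_one]
  have hP : ∀ n : ℕ, ∃ L : IntermediateField ℚ (AlgebraicClosure ℚ), FiniteDimensional ℚ L ∧
      ∀ σ : G, (∀ x ∈ L, σ x = x) → ∀ i j, (P σ - 1) i j ∈ maximalIdeal O ^ n := by
    intro n
    obtain ⟨L, hL, h1⟩ := hρ n
    refine ⟨L, hL, fun σ hσ i j => ?_⟩
    have h2 := map_mem_of_mem_smul_top (b.coord i) _ (h1 σ hσ (b j))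
    have h3 : P σ - 1 = LinearMap.toMatrixAlgEquiv b (ρ σ - 1) := by
      rw [map_sub, map_one, hPdef]
    rw [h3, LinearMap.toMatrixAlgEquiv_apply]
    exact h2
  -- the algebraically closed field
  let K := FractionRing O
  let E := AlgebraicClosure K
  have : CharZero K := charZero_field O K
  have : CharZero E := charZero_of_injective_algebraMap (algebraMap K E).injective
  have hr : 0 < r := Module.finrank_pos
  have : Nonempty (Fin r) := ⟨⟨0, hr⟩⟩
  obtain ⟨W, hW, hdim⟩ := exists_invariant (E := E) (V := Fin r → E) two_ne_zero (act P E)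
    (fun g => algebraMap O E (t g)) ((algebraMap O E : O →* E).comp (cyc p O hp))
    (act_quad P (cyc p O hp) t E hquad)
  obtain ⟨L, hLfin, hspan⟩ := exists_field_of_definition O K E W
  let O₂ := integralClosure O L
  have hloc : IsLocalRing O₂ := isLocalRing_integralClosure O K L
  have hdvr : IsDiscreteValuationRing O₂ := isDiscreteValuationRing_integralClosure O K L
  have hlh : IsLocalHom (algebraMap O O₂) := isLocalHom_integralClosure O K L
  have hinj : Function.Injective (algebraMap O₂ E) := by
    intro x y hxy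
    exact Subtype.ext (Subtype.ext hxy)
  have htow : IsScalarTower O O₂ E := IsScalarTower.of_algebraMap_eq (fun x => by
    have h1 : algebraMap O E x = algebraMap K E (algebraMap O K x) :=
      IsScalarTower.algebraMap_apply O K E x
    rw [h1]
    rfl)
  obtain ⟨ρ', hchar, hker⟩ := exists_galoisRepAdic_core (O := O) (O₂ := O₂) (E := E) P
    (cyc p O hp) t hinj hquad hP (exists_finite_cyc hp) W hW (hspan hLfin) hdim
  refine ⟨O₂, inferInstance, inferInstance, hdvr, isAdicComplete_integralClosure O K L,
    finite_residueField_integralClosure O K L, charZero_integralClosure O K L, inferInstance,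
    finite_integralClosure O K L, hlh, algebraMap_integralClosure_injective O K L, ρ', ?_, ?_⟩
  · intro ℓ hℓ hℓS A hA τ hτ
    have hℓp : ℓ ≠ p := fun e => hℓS (e ▸ hpS)
    have hcyc := cyc_frobenius (O := O) hp hℓ hℓp hA hτ
    have hrel := quad_inv ρ τ (a ℓ) ℓ (h ℓ hℓ hℓS A hA τ hτ)
    have ht' := ht τ
    rw [hcyc, hrel] at ht'
    have hta : t τ = a ℓ := by
      have h1 := congrArg (fun f : Module.End O Λ => b.repr (f (b ⟨0, hr⟩)) ⟨0, hr⟩) ht'
      simpa using h1.symm
    rw [hchar, hta, hcyc, map_natCast]
  · intro q hq hqp hin A hA σ hσ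
    refine hker σ ?_ (cyc_inertia hp hq hqp hA hσ)
    rw [hPdef, hin A hA σ hσ, map_one]

end Main

end Fermat.Agent.QuadRep
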