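import Mathlib

set_option autoImplicit false

/-!
# Saturated lattices in invariant subspaces
-/

open Module
open scoped TensorProduct

namespace Fermat.Agent.QuadRep

section Act

variable {O : Type*} [CommRing O] {G : Type*} [Group G] {r : ℕ}

/-- The action of `G` on `Rʳ` given by a matrix representation over `O`. -/
noncomputable def act (P : G →* Matrix (Fin r) (Fin r) O) (R : Type*) [CommRing R] [Algebra O R] :
    G →* Module.End R (Fin r → R) :=
  ((Matrix.toLinAlgEquiv' (R := R) (n := Fin r)).toAlgHom.toRingHom.toMonoidHom.comp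
    ((algebraMap O R).mapMatrix.toMonoidHom)).comp P

theorem act_apply (P : G →* Matrix (Fin r) (Fin r) O) (R : Type*) [CommRing R] [Algebra O R]
    (g : G) (x : Fin r → R) : act P R g x = ((P g).map (algebraMap O R)).mulVec x := rfl

/-- coordinatewise algebra map -/
def incl (R S : Type*) [CommRing R] [CommRing S] [Algebra R S] (r : ℕ) :
    (Fin r → R) →ₗ[R] (Fin r → S) :=
  (Algebra.linearMap R S).compLeft (Fin r)

theorem incl_apply (R S : Type*) [CommRing R] [CommRing S] [Algebra R S] (r : ℕ)
    (x : Fin r → R) (i : Fin r) : incl R S r x i = algebraMap R S (x i) := rfl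

theorem act_incl (P : G →* Matrix (Fin r) (Fin r) O) (R S : Type*) [CommRing R] [CommRing S]
    [Algebra O R] [Algebra O S] [Algebra R S] [IsScalarTower O R S] (g : G) (x : Fin r → R) :
    act P S g (incl R S r x) = incl R S r (act P R g x) := by
  ext i
  simp only [act_apply, incl_apply, Matrix.mulVec, dotProduct, Matrix.map_apply, map_sum, map_mul]
  simp only [← IsScalarTower.algebraMap_apply]

theorem incl_smul (R S : Type*) [CommRing R] [CommRing S] [Algebra R S] (r : ℕ)
    (c : R) (x : Fin r → R) : incl R S r (c • x) = algebraMap R S c • incl R S r x := by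
  ext i
  simp [incl_apply]

end Act

section Lattice

variable {O₂ E : Type*} [CommRing O₂] [IsDomain O₂] [IsPrincipalIdealRing O₂] [Field E]
  [Algebra O₂ E] {r : ℕ}

/-- The lattice of integral vectors in a subspace. -/
def lat (O₂ : Type*) {E : Type*} [CommRing O₂] [Field E] [Algebra O₂ E] {r : ℕ}
    (W : Submodule E (Fin r → E)) : Submodule O₂ (Fin r → O₂) :=
  (W.restrictScalars O₂).comap (incl O₂ E r)

theorem mem_lat (W : Submodule E (Fin r → E)) (x : Fin r → O₂) :
    x ∈ lat O₂ W ↔ incl O₂ E r x ∈ W := Iff.rfl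

variable (hinj : Function.Injective (algebraMap O₂ E))

include hinj

/-- A subspace spanned by vectors which are proportional to integral ones has a lattice of full
rank. -/
theorem finrank_lat (W : Submodule E (Fin r → E))
    (hW : W ≤ Submodule.span E (incl O₂ E r '' (lat O₂ W : Set (Fin r → O₂)))) :
    Module.finrank O₂ (lat O₂ W) = Module.finrank E W := by
  have hfs : FaithfulSMul O₂ E := (faithfulSMul_iff_algebraMap_injective O₂ E).mpr hinj
  have htf : IsTorsionFree O₂ E := inferInstance
  have hflat : Module.Flat O₂ E := inferInstance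
  let M := lat O₂ W
  let T1 : E ⊗[O₂] M →ₗ[E] E ⊗[O₂] (Fin r → O₂) := M.subtype.baseChange E
  have hT1 : Function.Injective T1 :=
    Module.Flat.lTensor_preserves_injective_linearMap M.subtype M.subtype_injective
  let T2 : E ⊗[O₂] (Fin r → O₂) ≃ₗ[E] (Fin r → E) := TensorProduct.piScalarRight O₂ E E (Fin r)
  let T : E ⊗[O₂] M →ₗ[E] (Fin r → E) := T2.toLinearMap ∘ₗ T1
  have hT : Function.Injective T := T2.injective.comp hT1
  have hTt : ∀ (e : E) (m : M), T (e ⊗ₜ m) = e • incl O₂ E r m := by
    intro e m
    ext i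
    simp [T, T1, T2, incl_apply, Algebra.smul_def, mul_comm]
  have hrange : LinearMap.range T = W := by
    apply le_antisymm
    · rintro _ ⟨x, rfl⟩
      induction x using TensorProduct.induction_on with
      | zero => simp
      | tmul e m => rw [hTt]; exact W.smul_mem _ m.2
      | add x y hx hy => rw [map_add]; exact W.add_mem hx hy
    · refine hW.trans (Submodule.span_le.mpr ?_)
      rintro _ ⟨x, hx, rfl⟩
      exact ⟨(1 : E) ⊗ₜ ⟨x, hx⟩, by rw [hTt, one_smul]⟩
  rw [← Module.finrank_baseChange (R := E) (S := O₂) (M' := M),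
    ← LinearMap.finrank_range_of_inj hT, hrange]

theorem exists_retraction (W : Submodule E (Fin r → E)) :
    ∃ π : (Fin r → O₂) →ₗ[O₂] lat O₂ W, ∀ m : lat O₂ W, π m = m := by
  let M := lat O₂ W
  have htf : IsTorsionFree O₂ ((Fin r → O₂) ⧸ M) := by
    refine Module.IsTorsionFree.of_smul_eq_zero ?_
    intro c x hcx
    by_cases hc : c = 0
    · exact Or.inl hc
    · right
      obtain ⟨y, rfl⟩ := Submodule.Quotient.mk_surjective _ x
      rw [← Submodule.Quotient.mk_smul, Submodule.Quotient.mk_eq_zero, mem_lat, incl_smul] at hcx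
      rw [Submodule.Quotient.mk_eq_zero, mem_lat]
      have hc' : algebraMap O₂ E c ≠ 0 := fun h => hc (hinj (by rw [h, map_zero]))
      exact (W.smul_mem_iff hc').mp hcx
  have hfree : Module.Free O₂ ((Fin r → O₂) ⧸ M) := Module.free_of_finite_type_torsion_free'
  obtain ⟨s, hs⟩ := Module.projective_lifting_property M.mkQ LinearMap.id M.mkQ_surjective
  have hs' : ∀ x, M.mkQ (s x) = x := fun x => congrArg (fun f => f x) hs
  let π : (Fin r → O₂) →ₗ[O₂] M := LinearMap.codRestrict M (LinearMap.id - s ∘ₗ M.mkQ) (by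
    intro x
    rw [← Submodule.Quotient.mk_eq_zero]
    change M.mkQ (x - s (M.mkQ x)) = 0
    rw [map_sub, hs', sub_self])
  refine ⟨π, fun m => Subtype.ext ?_⟩
  change (m : Fin r → O₂) - s (M.mkQ (m : Fin r → O₂)) = m
  have : M.mkQ (m : Fin r → O₂) = 0 := (Submodule.Quotient.mk_eq_zero M).mpr m.2
  rw [this, map_zero, sub_zero]

end Lattice

end Fermat.Agent.QuadRep
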