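import Fermat.Agent.QuadRep.Relation
import Fermat.Agent.QuadRep.Lattice
import Fermat.Agent.QuadRep.RankTwo

/-!
From an invariant subspace of dimension one or two (over a field) of an integral matrix
representation with quadratic relations to a two-dimensional adic Galois representation.
-/

set_option autoImplicit false
set_option linter.unusedSectionVars false

namespace Fermat.Agent.QuadRep

open IsLocalRing Polynomial

local notation "G" => (AlgebraicClosure ℚ ≃ₐ[ℚ] AlgebraicClosure ℚ)

section RankOne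

variable {O M : Type*} [CommRing O] [AddCommGroup M] [Module O M]

/-- In rank one every endomorphism is a scalar. -/
theorem exists_character {Γ : Type*} [Group Γ] (b : Module.Basis (Fin 1) O M)
    (ρ : Γ →* Module.End O M) :
    ∃ c : Γ →* O, (∀ g, ρ g = c g • (1 : Module.End O M)) := by
  have key : ∀ f : Module.End O M, f = b.repr (f (b 0)) 0 • (1 : Module.End O M) := by
    intro f
    refine b.ext fun i => ?_
    have hi : i = 0 := Subsingleton.elim _ _
    subst hi
    refine b.ext_elem fun j => ?_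
    have hj : j = 0 := Subsingleton.elim _ _
    subst hj
    simp
  refine ⟨{ toFun := fun g => b.repr (ρ g (b 0)) 0, map_one' := by simp, map_mul' := ?_ }, ?_⟩
  · intro g h
    rw [map_mul, Module.End.mul_apply]
    conv_lhs => rw [key (ρ h), key (ρ g)]
    simp [mul_comm]
  · intro g
    exact key (ρ g)

end RankOne

section Core

variable {O O₂ E : Type} [CommRing O] [IsLocalRing O] [CommRing O₂] [IsDomain O₂]
  [IsPrincipalIdealRing O₂] [IsLocalRing O₂] [Field E] [Algebra O O₂] [Algebra O E] [Algebra O₂ E]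
  [IsScalarTower O O₂ E]

variable {r : ℕ} (P : G →* Matrix (Fin r) (Fin r) O) (ε : G →* O) (t : G → O)

/-- the restriction of the action to the lattice. -/
noncomputable def latAct (W : Submodule E (Fin r → E))
    (hW : ∀ g, ∀ w ∈ W, act P E g w ∈ W) : G →* Module.End O₂ (lat O₂ W) where
  toFun g := (act P O₂ g).restrict (fun m hm => by
    rw [mem_lat, ← act_incl P O₂ E g m]
    exact hW g _ hm)
  map_one' := by
    ext m
    simp
  map_mul' g h := by
    ext m
    simp

theorem coe_latAct (W : Submodule E (Fin r → E)) (hW : ∀ g, ∀ w ∈ W, act P E g w ∈ W) (g : G)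
    (m : lat O₂ W) : (latAct P W hW g m : Fin r → O₂) = act P O₂ g m := rfl

theorem act_quad (R : Type*) [CommRing R] [Algebra O R]
    (h : ∀ g, P g + ε g • P g⁻¹ = t g • (1 : Matrix (Fin r) (Fin r) O)) (g : G) :
    act P R g + algebraMap O R (ε g) • act P R g⁻¹ =
      algebraMap O R (t g) • (1 : Module.End R (Fin r → R)) := by
  have h1 := congrArg (fun A : Matrix (Fin r) (Fin r) O => A.map (algebraMap O R)) (h g)
  refine LinearMap.ext fun x => ?_
  rw [LinearMap.add_apply, LinearMap.smul_apply, act_apply, act_apply, LinearMap.smul_apply,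
    Module.End.one_apply, ← Matrix.smul_mulVec, ← Matrix.add_mulVec]
  have h2 : (P g).map (algebraMap O R) + algebraMap O R (ε g) • (P g⁻¹).map (algebraMap O R) =
      algebraMap O R (t g) • (1 : Matrix (Fin r) (Fin r) R) := by
    ext i j
    have h3 := congrFun (congrFun h1 i) j
    simp only [Matrix.map_apply, Matrix.add_apply, Matrix.smul_apply, smul_eq_mul, map_add,
      map_mul] at h3 ⊢
    rw [h3, Matrix.one_apply, Matrix.one_apply]
    split_ifs <;> simp
  rw [h2, Matrix.smul_mulVec, Matrix.one_mulVec]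

theorem latAct_quad (W : Submodule E (Fin r → E)) (hW : ∀ g, ∀ w ∈ W, act P E g w ∈ W)
    (h : ∀ g, P g + ε g • P g⁻¹ = t g • (1 : Matrix (Fin r) (Fin r) O)) (g : G) :
    latAct (O₂ := O₂) P W hW g + algebraMap O O₂ (ε g) • latAct P W hW g⁻¹ =
      algebraMap O O₂ (t g) • (1 : Module.End O₂ (lat O₂ W)) := by
  refine LinearMap.ext fun m => Subtype.ext ?_
  have := congrArg (fun f : Module.End O₂ (Fin r → O₂) => f m) (act_quad P ε t O₂ h g)
  exact this

theorem mem_smul_top_of_forall {R : Type*} [CommRing R] {r : ℕ} (I : Ideal R) (x : Fin r → R)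
    (hx : ∀ i, x i ∈ I) : x ∈ I • (⊤ : Submodule R (Fin r → R)) := by
  have : x = ∑ i, x i • (Pi.single i (1 : R) : Fin r → R) := by
    conv_lhs => rw [pi_eq_sum_univ x]
    refine Finset.sum_congr rfl fun i _ => ?_
    congr 1
    ext j
    rw [Pi.single_apply]
    simp [eq_comm]
  rw [this]
  exact Submodule.sum_mem _ fun i _ => Submodule.smul_mem_smul (hx i) Submodule.mem_top

theorem map_maximalIdeal_pow [IsLocalHom (algebraMap O O₂)] (n : ℕ) {x : O}
    (hx : x ∈ maximalIdeal O ^ n) : algebraMap O O₂ x ∈ maximalIdeal O₂ ^ n := by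
  have hmap : (maximalIdeal O ^ n).map (algebraMap O O₂) ≤ maximalIdeal O₂ ^ n := by
    rw [Ideal.map_pow]
    exact Ideal.pow_right_mono (Ideal.map_le_iff_le_comap.mpr fun a ha =>
      Ideal.mem_comap.mpr (map_nonunit (algebraMap O O₂) a ha)) n
  exact hmap (Ideal.mem_map_of_mem _ hx)

theorem act_sub_mem [IsLocalHom (algebraMap O O₂)] (n : ℕ) (g : G)
    (hg : ∀ i j, (P g - 1) i j ∈ maximalIdeal O ^ n) (x : Fin r → O₂) :
    act P O₂ g x - x ∈ (maximalIdeal O₂ ^ n) • (⊤ : Submodule O₂ (Fin r → O₂)) := by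
  refine mem_smul_top_of_forall _ _ fun i => ?_
  have h1 : (act P O₂ g x - x) i = ∑ j, algebraMap O O₂ ((P g - 1) i j) * x j := by
    rw [act_apply, Pi.sub_apply, Matrix.mulVec, dotProduct]
    simp only [Matrix.sub_apply, map_sub, sub_mul, Finset.sum_sub_distrib, Matrix.map_apply]
    congr 1
    simp [Matrix.one_apply, apply_ite (algebraMap O O₂), ite_mul]
  rw [h1]
  exact Ideal.sum_mem _ fun j _ => Ideal.mul_mem_right _ _ (map_maximalIdeal_pow n (hg i j))

theorem latAct_continuous [IsLocalHom (algebraMap O O₂)]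
    (hinj : Function.Injective (algebraMap O₂ E))
    (hP : ∀ n : ℕ, ∃ L : IntermediateField ℚ (AlgebraicClosure ℚ), FiniteDimensional ℚ L ∧
      ∀ σ : G, (∀ x ∈ L, σ x = x) → ∀ i j, (P σ - 1) i j ∈ maximalIdeal O ^ n)
    (W : Submodule E (Fin r → E)) (hW : ∀ g, ∀ w ∈ W, act P E g w ∈ W) :
    GaloisActionIsAdicContinuous O₂ (latAct (O₂ := O₂) P W hW) := by
  intro n
  obtain ⟨L, hL, h1⟩ := hP n
  refine ⟨L, hL, fun σ hσ m => ?_⟩
  obtain ⟨π, hπ⟩ := exists_retraction hinj W
  have h2 := act_sub_mem (O₂ := O₂) P n σ (h1 σ hσ) m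
  have h3 : latAct P W hW σ m - m = π (act P O₂ σ m - m) := by
    rw [map_sub, hπ m, ← coe_latAct P W hW σ m, hπ]
  rw [h3]
  have h4 := Submodule.mem_map_of_mem (f := π) h2
  rw [Submodule.map_smul''] at h4
  exact Submodule.smul_mono le_rfl le_top h4

theorem nonscalar_latAct (W : Submodule E (Fin r → E)) (hW : ∀ g, ∀ w ∈ W, act P E g w ∈ W)
    (hspan : W ≤ Submodule.span E (incl O₂ E r '' (lat O₂ W : Set (Fin r → O₂))))
    (g : G) (hg : ∀ c : E, ∃ w ∈ W, act P E g w ≠ c • w) (c : O₂) :
    latAct (O₂ := O₂) P W hW g ≠ c • (1 : Module.End O₂ (lat O₂ W)) := by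
  intro h
  obtain ⟨w, hw, hne⟩ := hg (algebraMap O₂ E c)
  have key : ∀ x ∈ Submodule.span E (incl O₂ E r '' (lat O₂ W : Set (Fin r → O₂))),
      act P E g x = algebraMap O₂ E c • x := by
    intro x hx
    induction hx using Submodule.span_induction with
    | mem x hx =>
      obtain ⟨m, hm, rfl⟩ := hx
      rw [act_incl P O₂ E g m, ← incl_smul]
      congr 1
      exact congrArg (fun f : Module.End O₂ (lat O₂ W) => ((f ⟨m, hm⟩ : lat O₂ W) : Fin r → O₂)) h
    | zero => simp
    | add x y _ _ hx hy => rw [map_add, hx, hy, smul_add]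
    | smul a x _ hx => rw [map_smul, hx, smul_comm]
  exact hne (key w (hspan hw))

/-- The diagonal representation attached to two characters. -/
noncomputable def diagRep {Γ R : Type*} [Group Γ] [CommRing R] (c d : Γ →* R) :
    Γ →* Module.End R (Fin 2 → R) where
  toFun g := Matrix.toLin' (Matrix.diagonal ![c g, d g])
  map_one' := by
    refine LinearMap.ext fun x => ?_
    ext i
    fin_cases i <;> simp [Matrix.mulVec_diagonal]
  map_mul' g h := by
    rw [map_mul, map_mul, Module.End.mul_eq_comp, ← Matrix.toLin'_mul, Matrix.diagonal_mul_diagonal]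
    congr 2
    ext i
    fin_cases i <;> simp

theorem diagRep_apply {Γ R : Type*} [Group Γ] [CommRing R] (c d : Γ →* R) (g : Γ)
    (x : Fin 2 → R) : diagRep c d g x = ![c g * x 0, d g * x 1] := by
  ext i
  fin_cases i <;> simp [diagRep, Matrix.mulVec_diagonal]

theorem charpoly_diagRep {Γ R : Type*} [Group Γ] [CommRing R] [Nontrivial R] (c d : Γ →* R)
    (g : Γ) :
    LinearMap.charpoly (diagRep c d g) = X ^ 2 - C (c g + d g) * X + C (c g * d g) := by
  have : diagRep c d g = Matrix.toLin' (Matrix.diagonal ![c g, d g]) := rfl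
  rw [this, ← LinearMap.charpoly_toMatrix _ (Pi.basisFun R (Fin 2)),
    LinearMap.toMatrix_eq_toMatrix', LinearMap.toMatrix'_toLin', Matrix.charpoly_fin_two]
  simp

theorem exists_galoisRepAdic_core [IsLocalHom (algebraMap O O₂)]
    (hinj : Function.Injective (algebraMap O₂ E))
    (h : ∀ g, P g + ε g • P g⁻¹ = t g • (1 : Matrix (Fin r) (Fin r) O))
    (hP : ∀ n : ℕ, ∃ L : IntermediateField ℚ (AlgebraicClosure ℚ), FiniteDimensional ℚ L ∧
      ∀ σ : G, (∀ x ∈ L, σ x = x) → ∀ i j, (P σ - 1) i j ∈ maximalIdeal O ^ n)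
    (hε : ∀ n : ℕ, ∃ L : IntermediateField ℚ (AlgebraicClosure ℚ), FiniteDimensional ℚ L ∧
      ∀ σ : G, (∀ x ∈ L, σ x = x) → ε σ - 1 ∈ maximalIdeal O ^ n)
    (W : Submodule E (Fin r → E)) (hW : ∀ g, ∀ w ∈ W, act P E g w ∈ W)
    (hspan : W ≤ Submodule.span E (incl O₂ E r '' (lat O₂ W : Set (Fin r → O₂))))
    (hdim : Module.finrank E W = 1 ∨
      (Module.finrank E W = 2 ∧ ∃ g, ∀ c : E, ∃ w ∈ W, act P E g w ≠ c • w)) :
    ∃ ρ : GaloisRepAdic O₂,
      (∀ g, LinearMap.charpoly (ρ.ρ g) =
        X ^ 2 - C (algebraMap O O₂ (t g)) * X + C (algebraMap O O₂ (ε g))) ∧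
      ∀ g, P g = 1 → ε g = 1 → ρ.ρ g = 1 := by
  have hquad := latAct_quad (O₂ := O₂) P ε t W hW h
  have hcont := latAct_continuous (O₂ := O₂) P hinj hP W hW
  have hfin := finrank_lat hinj W hspan
  have hker : ∀ g, P g = 1 → latAct (O₂ := O₂) P W hW g = 1 := by
    intro g hg
    refine LinearMap.ext fun m => Subtype.ext ?_
    rw [coe_latAct, act_apply, hg, Matrix.map_one _ (map_zero _) (map_one _), Matrix.one_mulVec]
    rfl
  rcases hdim with hdim | ⟨hdim, g₀, hg₀⟩
  · -- rank one
    have b : Module.Basis (Fin 1) O₂ (lat O₂ W) :=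
      Module.finBasisOfFinrankEq O₂ _ (hfin.trans hdim)
    obtain ⟨c, hc⟩ := exists_character b (latAct (O₂ := O₂) P W hW)
    have hcinv : ∀ g, c g * c g⁻¹ = 1 := fun g => by rw [← map_mul, mul_inv_cancel, map_one]
    have hsmul : ∀ x y : O₂, x • (1 : Module.End O₂ (lat O₂ W)) = y • 1 → x = y := by
      intro x y hxy
      have := congrArg (fun f : Module.End O₂ (lat O₂ W) => b.repr (f (b 0)) 0) hxy
      simpa using this
    let e : G →* O₂ := (algebraMap O O₂ : O →* O₂).comp ε
    let d : G →* O₂ :=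
      { toFun := fun g => e g * c g⁻¹
        map_one' := by simp
        map_mul' := fun g h => by rw [map_mul, mul_inv_rev, map_mul]; ring }
    have hd : ∀ g, d g = e g * c g⁻¹ := fun g => rfl
    have hct : ∀ g, c g + d g = algebraMap O O₂ (t g) := by
      intro g
      apply hsmul
      rw [← hquad g, hc g, hc g⁻¹, smul_smul, ← add_smul]
      rfl
    have hccont : ∀ n : ℕ, ∃ L : IntermediateField ℚ (AlgebraicClosure ℚ),
        FiniteDimensional ℚ L ∧ ∀ σ : G, (∀ x ∈ L, σ x = x) → c σ - 1 ∈ maximalIdeal O₂ ^ n := by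
      intro n
      obtain ⟨L, hL, h1⟩ := hcont n
      refine ⟨L, hL, fun σ hσ => ?_⟩
      have h2 := map_mem_of_mem_smul_top (b.coord 0) _ (h1 σ hσ (b 0))
      rw [hc] at h2
      simpa using h2
    refine ⟨{ V := Fin 2 → O₂, finrank_eq := by simp, ρ := diagRep c d, isAdicContinuous := ?_ },
      ?_, ?_⟩
    · intro n
      obtain ⟨L₁, hL₁, h₁⟩ := hccont n
      obtain ⟨L₂, hL₂, h₂⟩ := hε n
      refine ⟨L₁ ⊔ L₂, by
        have := hL₁
        have := hL₂
        exact IntermediateField.finiteDimensional_sup L₁ L₂, fun σ hσ x => ?_⟩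
      have hσ' : ∀ x ∈ L₁ ⊔ L₂, σ⁻¹ x = x := by
        intro x hx
        conv_lhs => rw [← hσ x hx]
        rw [← AlgEquiv.mul_apply, inv_mul_cancel, AlgEquiv.one_apply]
      have k1 := h₁ σ fun x hx => hσ x ((le_sup_left : L₁ ≤ L₁ ⊔ L₂) hx)
      have k2 := h₁ σ⁻¹ fun x hx => hσ' x ((le_sup_left : L₁ ≤ L₁ ⊔ L₂) hx)
      have k3 := map_maximalIdeal_pow (O₂ := O₂) n
        (h₂ σ fun x hx => hσ x ((le_sup_right : L₂ ≤ L₁ ⊔ L₂) hx))
      have k4 : d σ - 1 ∈ maximalIdeal O₂ ^ n := by
        have : d σ - 1 = algebraMap O O₂ (ε σ - 1) * c σ⁻¹ + (c σ⁻¹ - 1) := by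
          rw [hd, map_sub, map_one, sub_mul, one_mul]
          change algebraMap O O₂ (ε σ) * c σ⁻¹ - 1 = _
          ring
        rw [this]
        exact Ideal.add_mem _ (Ideal.mul_mem_right _ _ k3) k2
      refine mem_smul_top_of_forall _ _ fun i => ?_
      rw [Pi.sub_apply, diagRep_apply]
      fin_cases i
      · have : c σ * x 0 - x 0 = (c σ - 1) * x 0 := by ring
        change c σ * x 0 - x 0 ∈ _
        rw [this]
        exact Ideal.mul_mem_right _ _ k1
      · have : d σ * x 1 - x 1 = (d σ - 1) * x 1 := by ring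
        change d σ * x 1 - x 1 ∈ _
        rw [this]
        exact Ideal.mul_mem_right _ _ k4
    · intro g
      change LinearMap.charpoly (diagRep c d g) = _
      rw [charpoly_diagRep, hct, hd, mul_left_comm, hcinv, mul_one]
      rfl
    · intro g hPg hεg
      change diagRep c d g = 1
      have h1 : c g = 1 := by
        apply hsmul
        rw [← hc, hker g hPg, one_smul]
      have h2 : c g⁻¹ = 1 := by
        have := hcinv g
        rwa [h1, one_mul] at this
      have h3 : d g = 1 := by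
        rw [hd, h2, mul_one]
        change algebraMap O O₂ (ε g) = 1
        rw [hεg, map_one]
      refine LinearMap.ext fun x => ?_
      rw [diagRep_apply, h1, h3, one_mul, one_mul, Module.End.one_apply]
      ext i
      fin_cases i <;> rfl
  · -- rank two
    refine ⟨{ V := lat O₂ W, finrank_eq := hfin.trans hdim, ρ := latAct P W hW,
              isAdicContinuous := hcont }, ?_, ?_⟩
    · intro g
      exact rankTwo_charpoly (hfin.trans hdim) (latAct (O₂ := O₂) P W hW)
        (fun g => algebraMap O O₂ (t g)) ((algebraMap O O₂ : O →* O₂).comp ε) hquad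
        ⟨g₀, nonscalar_latAct P W hW hspan g₀ hg₀⟩ g
    · intro g hPg _
      exact hker g hPg

end Core

end Fermat.Agent.QuadRep
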